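import Mathlib
import Fermat.Agent.LT.T2.H291.OpsSpecT
import Fermat.Agent.LT.T2.H566.SpherePres

/-!
# Row LT, tower T2, sub-leaf T2.27.12 `SubSpherePresT291` (helper409, registry row 1394)

OFF-MAIN.  The sphere means at a complex place preserve the cusp functions of the class
`(𝔫, τ, r)` of T5:

`subSpherePresT409 : SubS2RotT291 → SubTypeSU2T291 K → SubSpherePresT291 K`.

`T`-form of `T2.07.12`; the proof is the one of helper566 (`LT/T2/H566/SpherePres.lean`, spare of
helper90) with `τ`, `r` as parameters.

* continuity, boundedness, left invariance, level: as in `T2.07.12`;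
* the ray generator `r` is central (`central_of_comp409`);
* type `τ` under `U(2)` at the place of the mean: `k = Z K₀`, `Z` a unitary scalar (central),
  `K₀ ∈ SU(2)`; `τ K₀ = 1` (`SubTypeSU2T291`), and `SubS2RotT291` is applied to
  `ψ(m) = φ(g · loc_w(m · torus d))`, which is right invariant under the torus `{rotZ γ}` because
  `rotZ γ ∈ SU(2)` commutes with `torus d`;
* type `τ` at the other infinite places: the elements commute with `Y α β`;
* cuspidality: Fubini (`μ D < ∞` by `T1.AddFundDomC`).

Imports (byte-identical copies): `LT/T2/H291/OpsSpecT.lean` (helper291, c8359c85),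
`LT/T2/H566/{SpherePres (b09e34f4), CuspSub (e069a95a)}.lean` (helper566),
`LT/T2/H429/{OpsSpec (6efb177a), Loc (e54337bf)}.lean` (helper429), `LT/T2/H472/LocCont.lean`
(helper472, 407bf890), `LT/H129/{Comp, Local}.lean` (helper129), `LT/T1/H793/AdeleProj.lean`
(helper793).
-/

set_option autoImplicit false
set_option linter.unusedSectionVars false
set_option linter.style.haveILetI false

open IsDedekindDomain NumberField MeasureTheory
open Fermat.Agent.LT.H556.A0 Fermat.Agent.LT
open Fermat.Agent.LT.T2 Fermat.Agent.LT.T2.H429 Fermat.Agent.LT.T2.H472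
open Fermat.Agent.LT.T2.H566 Fermat.Agent.LT.T2.H291 Fermat.Agent.LT.H129
open scoped ComplexConjugate

noncomputable section

namespace Fermat.Agent.LT.T2.H409

open NumberField.InfinitePlace

variable {K : Type} [Field K] [NumberField K]

attribute [local instance] Fermat.Agent.LT.T2.borelG

/-! ## Central elements -/

/-- An element which is trivial at the finite places and a scalar matrix at every infinite place
is central. -/
theorem central_of_comp409 {z : G K}
    (hI : ∀ w : InfinitePlace K, ∃ c : ℂ, infComp w z = Matrix.diagonal (fun _ => c))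
    (hF : ∀ v : HeightOneSpectrum (𝓞 K), TrivAtFin v z) (g : G K) : g * z = z * g := by
  refine central_of_scalar_comp429 (fun w => ?_) (fun v => ?_) g
  · obtain ⟨c, hc⟩ := hI w
    exact ⟨_, scalar_of_map_scalar429 _ c (by rw [← infComp_eq429]; exact hc)⟩
  · refine ⟨1, ?_⟩
    rw [(trivAtFin_iff129 v z).1 (hF v)]
    exact one_eq_diagonal429

/-- The ray generator is central. -/
theorem central_ray409 {r : G K} (hr : IsRayGen r) (g : G K) : g * r = r * g := by
  obtain ⟨hfin, t, -, -, ht⟩ := hr
  exact central_of_comp409 (fun w => ⟨(t : ℂ), ht w⟩) hfin g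

/-- `A0.infComp` of an element which is trivial at `w`. -/
theorem infComp_of_trivAtInf409 {w : InfinitePlace K} {g : G K} (h : TrivAtInf w g) :
    infComp w g = 1 := by
  rw [infComp_eq429, (trivAtInf_iff129 w g).1 h, Units.val_one,
    Matrix.map_one _ (map_zero _) (map_one _)]

/-- A local element at `w` with a scalar matrix is central. -/
theorem central_of_local_scalar409 {w : InfinitePlace K} {z : G K} (hz : IsLocalAtInf w z)
    {c : ℂ} (hc : infComp w z = Matrix.diagonal (fun _ => c)) (g : G K) : g * z = z * g := by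
  refine central_of_comp409 (fun w' => ?_) hz.2 g
  by_cases h : w' = w
  · subst h
    exact ⟨c, hc⟩
  · refine ⟨1, ?_⟩
    rw [infComp_of_trivAtInf409 (hz.1 w' h), Matrix.diagonal_one]

/-! ## Matrices -/

theorem det_torus_ne_zero409 (d : ℝ) : (torus d).det ≠ 0 := by
  unfold torus
  rw [Matrix.det_fin_two_of, mul_zero, sub_zero, ← Complex.ofReal_mul, ← Real.exp_add]
  exact_mod_cast (Real.exp_pos _).ne'

theorem rotZ_mul_torus409 (γ d : ℝ) : rotZ γ * torus d = torus d * rotZ γ := by
  unfold rotZ torus
  ext i j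
  fin_cases i <;> fin_cases j <;> simp [Matrix.mul_apply, Fin.sum_univ_two, mul_comm]

theorem rotZ_unitary409 (γ : ℝ) : rotZ γ * (rotZ γ).conjTranspose = 1 := by
  unfold rotZ
  ext i j
  fin_cases i <;> fin_cases j <;>
    simp [Matrix.mul_apply, Fin.sum_univ_two, Matrix.conjTranspose_apply, ← Complex.exp_conj,
      ← Complex.exp_add, Complex.conj_ofNat]

theorem det_rotZ409 (γ : ℝ) : (rotZ γ).det = 1 := by
  unfold rotZ
  rw [Matrix.det_fin_two_of, mul_zero, sub_zero, ← Complex.exp_add, add_neg_cancel,
    Complex.exp_zero]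

/-- A unitary matrix is the product of a unitary scalar and an element of `SU(2)`. -/
theorem exists_scalar_su409 {m : Matrix (Fin 2) (Fin 2) ℂ} (hm : m * m.conjTranspose = 1) :
    ∃ (c : ℂ) (k₀ : Matrix (Fin 2) (Fin 2) ℂ), c * conj c = 1 ∧ k₀ * k₀.conjTranspose = 1 ∧
      k₀.det = 1 ∧ m = Matrix.diagonal (fun _ => c) * k₀ := by
  have hdet : m.det * conj m.det = 1 := by
    have := congrArg Matrix.det hm
    rwa [Matrix.det_mul, Matrix.det_conjTranspose, Matrix.det_one] at this
  have hdet0 : m.det ≠ 0 := left_ne_zero_of_mul_eq_one hdet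
  obtain ⟨c, hc⟩ := IsAlgClosed.exists_pow_nat_eq m.det (n := 2) (by norm_num)
  have hc0 : c ≠ 0 := by
    intro h0
    rw [h0] at hc
    exact hdet0 (by rw [← hc]; norm_num)
  have hcc : c * conj c = 1 := by
    have h1 : (c * conj c) ^ 2 = 1 := by
      rw [mul_pow, ← map_pow, hc]
      exact hdet
    have h2 : c * conj c = ((Complex.normSq c : ℝ) : ℂ) := Complex.mul_conj c
    rw [h2] at h1 ⊢
    have h3 : (Complex.normSq c) ^ 2 = 1 := by exact_mod_cast h1
    have h4 : Complex.normSq c = 1 := by
      have h5 : 0 ≤ Complex.normSq c := Complex.normSq_nonneg c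
      nlinarith [h3, h5]
    rw [h4, Complex.ofReal_one]
  refine ⟨c, c⁻¹ • m, hcc, ?_, ?_, ?_⟩
  · rw [Matrix.conjTranspose_smul, Matrix.smul_mul, Matrix.mul_smul, hm, smul_smul]
    have : c⁻¹ * star c⁻¹ = 1 := by
      rw [star_inv₀, ← mul_inv]
      show (c * conj c)⁻¹ = 1
      rw [hcc, inv_one]
    rw [this, one_smul]
  · rw [Matrix.det_smul, Fintype.card_fin, ← hc, inv_pow, inv_mul_cancel₀ (pow_ne_zero 2 hc0)]
  · have : (Matrix.diagonal (fun _ => c) : Matrix (Fin 2) (Fin 2) ℂ) = c • 1 := by
      ext i j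
      by_cases h : i = j
      · subst h
        simp
      · simp [Matrix.diagonal_apply_ne _ h, Matrix.one_apply_ne h]
    rw [this, Matrix.smul_mul, Matrix.one_mul, smul_smul, mul_inv_cancel₀ hc0, one_smul]

theorem diagonal_unitary409 {c : ℂ} (hc : c * conj c = 1) :
    (Matrix.diagonal (fun _ => c) : Matrix (Fin 2) (Fin 2) ℂ)
      * (Matrix.diagonal (fun _ => c) : Matrix (Fin 2) (Fin 2) ℂ).conjTranspose = 1 := by
  rw [Matrix.diagonal_conjTranspose, Matrix.diagonal_mul_diagonal, ← Matrix.diagonal_one]
  congr 1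
  funext i
  exact hc

/-! ## The function fed to `SubS2RotT291` -/

/-- `ψ(m) = φ(g · loc_w(m · torus d))`. -/
def psiT409 (w : InfinitePlace K) (hw : w.IsComplex) (φ : G K → ℂ) (g : G K) (d : ℝ) :
    Matrix (Fin 2) (Fin 2) ℂ → ℂ :=
  fun m => psiC566 w hw φ g (m * torus d)

theorem continuousOn_psiT409 (w : InfinitePlace K) (hw : w.IsComplex) {φ : G K → ℂ}
    (hφ : Continuous φ) (g : G K) (d : ℝ) :
    ContinuousOn (psiT409 w hw φ g d) {m | m.det ≠ 0} := by
  have h1 : ContinuousOn (fun m : Matrix (Fin 2) (Fin 2) ℂ => m * torus d) {m | m.det ≠ 0} :=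
    (continuous_id.matrix_mul continuous_const).continuousOn
  refine (continuousOn_psiC566 w hw hφ g).comp h1 ?_
  intro m hm
  show (m * torus d).det ≠ 0
  rw [Matrix.det_mul]
  exact mul_ne_zero hm (det_torus_ne_zero409 d)

/-- The type of `ψ = psiC566` under right multiplication by a unitary matrix. -/
theorem psiC_right_type409 (w : InfinitePlace K) (hw : w.IsComplex) {τ : G K → ℂ}
    {φ : G K → ℂ}
    (hinv : ∀ (w : InfinitePlace K) (k : G K), IsArchCompact w k →
      ∀ g : G K, φ (g * k) = τ k * φ g)
    (g : G K) (m k : Matrix (Fin 2) (Fin 2) ℂ) (hk : k * k.conjTranspose = 1)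
    (hkdet : k.det ≠ 0) :
    psiC566 w hw φ g (m * k) = τ (locC566 w hw k hkdet) * psiC566 w hw φ g m := by
  by_cases hm : m.det ≠ 0
  · have hmk : (m * k).det ≠ 0 := by
      rw [Matrix.det_mul]
      exact mul_ne_zero hm hkdet
    unfold psiC566
    rw [dif_pos hmk, dif_pos hm, locC_mul566 w hw m k hm hkdet hmk, ← mul_assoc]
    refine hinv w _ ⟨isLocalAtInf_locC566 w hw k hkdet, ?_, fun hr => ?_⟩ _
    · rw [infComp_locC566]
      exact hk
    · exact absurd hr (not_isReal_iff_isComplex.2 hw)
  · have hmk : ¬ (m * k).det ≠ 0 := by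
      rw [Matrix.det_mul]
      push Not at hm ⊢
      rw [hm, zero_mul]
    unfold psiC566
    rw [dif_neg hmk, dif_neg hm, mul_zero]

theorem isArchCompact_locC409 (w : InfinitePlace K) (hw : w.IsComplex)
    {k : Matrix (Fin 2) (Fin 2) ℂ} (hk : k * k.conjTranspose = 1) (hkdet : k.det ≠ 0) :
    IsArchCompact w (locC566 w hw k hkdet) := by
  refine ⟨isLocalAtInf_locC566 w hw k hkdet, ?_, fun hr => ?_⟩
  · rw [infComp_locC566]
    exact hk
  · exact absurd hr (not_isReal_iff_isComplex.2 hw)

/-! ## The sub-leaf -/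

/-- **T2.27.12 `SubSpherePresT291`** from `SubS2RotT291` (T2.27.31) and `SubTypeSU2T291`
(T2.27.33). -/
theorem subSpherePresT409 (K : Type) [Field K] [NumberField K] (hS2 : SubS2RotT291)
    (hSU : SubTypeSU2T291 K) : SubSpherePresT291 K := by
  intro 𝔫 τ c R w hw d _ Y hY φ hφ
  have hYc : Continuous fun p : ℝ × ℝ => Y p.1 p.2 := continuous_sphere566 w d Y hY
  have hsin : Continuous fun β : ℝ => ((Real.sin β : ℝ) : ℂ) := by fun_prop
  obtain ⟨C, hC⟩ := hφ.aut.bdd
  have hC0 : 0 ≤ C := (norm_nonneg _).trans (hC 1)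
  -- the inner integral is jointly continuous
  have hinner : ∀ {X : Type} [TopologicalSpace X] (a : X → G K), Continuous a →
      Continuous fun p : X × ℝ => ∫ β in (0 : ℝ)..Real.pi,
        φ (a p.1 * Y p.2 β) * ((Real.sin β : ℝ) : ℂ) := by
    intro X _ a ha
    have hf : Continuous (Function.uncurry fun (p : X × ℝ) (β : ℝ) =>
        φ (a p.1 * Y p.2 β) * ((Real.sin β : ℝ) : ℂ)) := by
      refine (hφ.aut.cont.comp ?_).mul (hsin.comp continuous_snd)
      refine (ha.comp (continuous_fst.comp continuous_fst)).mul ?_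
      exact hYc.comp ((continuous_snd.comp continuous_fst).prodMk continuous_snd)
    exact intervalIntegral.continuous_parametric_intervalIntegral_of_continuous' hf 0 Real.pi
  have hinner_bd : ∀ (g : G K) (α : ℝ), ‖∫ β in (0 : ℝ)..Real.pi,
      φ (g * Y α β) * ((Real.sin β : ℝ) : ℂ)‖ ≤ C * |Real.pi - 0| := by
    intro g α
    refine intervalIntegral.norm_integral_le_of_norm_le_const fun β _ => ?_
    rw [norm_mul, Complex.norm_real]
    calc ‖φ (g * Y α β)‖ * ‖Real.sin β‖ ≤ C * 1 :=
          mul_le_mul (hC _) (by rw [Real.norm_eq_abs]; exact Real.abs_sin_le_one β)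
            (norm_nonneg _) hC0
      _ = C := mul_one C
  -- a factor `τ k` comes out of the mean
  have hpull : ∀ (t : ℂ) (g h : G K),
      (∀ α β : ℝ, φ (g * Y α β) = t * φ (h * Y α β)) →
      sphereMean Y φ g = t * sphereMean Y φ h := by
    intro t g h e
    show (∫ α in (0 : ℝ)..(2 * Real.pi), ∫ β in (0 : ℝ)..Real.pi,
        φ (g * Y α β) * ((Real.sin β : ℝ) : ℂ))
      = t * ∫ α in (0 : ℝ)..(2 * Real.pi), ∫ β in (0 : ℝ)..Real.pi,
        φ (h * Y α β) * ((Real.sin β : ℝ) : ℂ)
    rw [← intervalIntegral.integral_const_mul]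
    congr 1
    funext α
    rw [← intervalIntegral.integral_const_mul]
    congr 1
    funext β
    rw [e α β, mul_assoc]
  refine ⟨⟨?_, ?_, ?_, ?_, ?_, ?_⟩, ?_⟩
  · -- continuity
    have h2 : Continuous (Function.uncurry fun (g : G K) (α : ℝ) =>
        ∫ β in (0 : ℝ)..Real.pi, φ (g * Y α β) * ((Real.sin β : ℝ) : ℂ)) :=
      hinner (fun g : G K => g) continuous_id
    exact intervalIntegral.continuous_parametric_intervalIntegral_of_continuous' h2 0
      (2 * Real.pi)
  · -- boundedness
    refine ⟨C * |Real.pi - 0| * |2 * Real.pi - 0|, fun g => ?_⟩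
    exact intervalIntegral.norm_integral_le_of_norm_le_const fun α _ => hinner_bd g α
  · -- left invariance
    intro γ g
    have := hpull 1 (Matrix.GeneralLinearGroup.map (algebraMap K (Adl K)) γ * g) g
      (fun α β => by rw [mul_assoc, hφ.aut.left_inv γ _, one_mul])
    rwa [one_mul] at this
  · -- level
    intro u hu g
    have := hpull 1 (g * u) g (fun α β => by
      rw [mul_assoc, commute_level_inf429 hu (hY α β).1, ← mul_assoc,
        hφ.aut.level_inv u hu _, one_mul])
    rwa [one_mul] at this
  · -- the type under the compact groups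
    intro w' k hk g
    by_cases h : w' = w
    · subst h
      obtain ⟨z, k₀, hzz, hk₀u, hk₀d, hdec⟩ := exists_scalar_su409 hk.2.1
      have hzdet : (Matrix.diagonal (fun _ => z) : Matrix (Fin 2) (Fin 2) ℂ).det ≠ 0 :=
        det_ne_zero_of_unitary566 (diagonal_unitary409 hzz)
      have hk₀det : k₀.det ≠ 0 := by rw [hk₀d]; exact one_ne_zero
      set Z : G K := locC566 w' hw (Matrix.diagonal (fun _ => z)) hzdet with hZ
      set K₀ : G K := locC566 w' hw k₀ hk₀det with hK₀
      have hZc : IsArchCompact w' Z := isArchCompact_locC409 w' hw (diagonal_unitary409 hzz) _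
      have hK₀c : IsArchCompact w' K₀ := isArchCompact_locC409 w' hw hk₀u _
      have hkZK : k = Z * K₀ := by
        refine eq_of_isLocalAtInf429 hk.1 (isLocalAtInf_mul429 hZc.1 hK₀c.1) ?_
        rw [infComp_mul429, hZ, hK₀, infComp_locC566, infComp_locC566]
        exact hdec
      have hZcen : ∀ x : G K, x * Z = Z * x :=
        central_of_local_scalar409 hZc.1 (infComp_locC566 w' hw _ hzdet)
      have hτK₀ : τ K₀ = 1 :=
        hSU τ c.kt w' hw K₀ hK₀c (by rw [hK₀, infComp_locC566]; exact hk₀d)
      have hτk : τ k = τ Z := by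
        rw [hkZK, c.kt.mul w' Z K₀ hZc hK₀c, hτK₀, mul_one]
      -- the rotation invariance
      have hinvψ : ∀ (m : Matrix (Fin 2) (Fin 2) ℂ) (γ : ℝ),
          psiT409 w' hw φ g d (m * rotZ γ) = psiT409 w' hw φ g d m := by
        intro m γ
        have hrdet : (rotZ γ).det ≠ 0 := by rw [det_rotZ409]; exact one_ne_zero
        show psiC566 w' hw φ g (m * rotZ γ * torus d) = psiC566 w' hw φ g (m * torus d)
        rw [Matrix.mul_assoc, rotZ_mul_torus409, ← Matrix.mul_assoc,
          psiC_right_type409 w' hw hφ.aut.arch_compact g (m * torus d) (rotZ γ)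
            (rotZ_unitary409 γ) hrdet]
        rw [hSU τ c.kt w' hw _ (isArchCompact_locC409 w' hw (rotZ_unitary409 γ) hrdet)
          (by rw [infComp_locC566]; exact det_rotZ409 γ), one_mul]
      have key := hS2 (psiT409 w' hw φ g d) (continuousOn_psiT409 w' hw hφ.aut.cont g d)
        hinvψ k₀ hk₀u hk₀d
      have e1 : ∀ α β : ℝ, psiT409 w' hw φ g d (k₀ * (rotZ α * rotY β))
          = φ (g * K₀ * Y α β) := by
        intro α β
        have := psiC_of_local566 w' hw φ g (isLocalAtInf_mul429 hK₀c.1 (hY α β).1)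
        rw [infComp_mul429, (hY α β).2, hK₀, infComp_locC566, ← hK₀, ← mul_assoc g] at this
        show psiC566 w' hw φ g (k₀ * (rotZ α * rotY β) * torus d) = φ (g * K₀ * Y α β)
        rw [← this]
        congr 1
        simp only [Matrix.mul_assoc]
      have e2 : ∀ α β : ℝ, psiT409 w' hw φ g d (rotZ α * rotY β) = φ (g * Y α β) := by
        intro α β
        have := psiC_of_local566 w' hw φ g (hY α β).1
        rw [(hY α β).2] at this
        exact this
      simp only [e1, e2] at key
      -- assemble
      have h1 : sphereMean Y φ (g * k) = τ Z * sphereMean Y φ (g * K₀) := by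
        refine hpull (τ Z) (g * k) (g * K₀) fun α β => ?_
        have : g * k * Y α β = g * K₀ * Y α β * Z := by
          rw [hkZK, hZcen (g * K₀ * Y α β)]
          simp only [mul_assoc]
          rw [← mul_assoc g Z, hZcen g]
          simp only [mul_assoc]
        rw [this, hφ.aut.arch_compact w' Z hZc]
      rw [h1, hτk]
      congr 1
    · refine hpull (τ k) (g * k) g fun α β => ?_
      rw [mul_assoc, commute_inf_inf429 h hk.1 (hY α β).1, ← mul_assoc,
        hφ.aut.arch_compact w' k hk _]
  · -- the ray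
    intro g
    have := hpull 1 (g * R.r) g (fun α β => by
      rw [mul_assoc, ← central_ray409 R.ray (Y α β), ← mul_assoc, hφ.aut.ray, one_mul])
    rwa [one_mul] at this
  · -- cuspidality
    letI : MeasurableSpace (Adl K) := borel (Adl K)
    haveI : BorelSpace (Adl K) := ⟨rfl⟩
    intro μ hμ D hD n hn g
    haveI := hμ
    have hDfin : μ D < ⊤ := measure_fundDom_lt_top566 c.t1.addFundDom μ hμ D hD
    haveI : IsFiniteMeasure (μ.restrict D) := ⟨by rwa [Measure.restrict_apply_univ]⟩
    have hnc : Continuous n := continuous_unip566 n hn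
    -- first swap: `x` and `α`
    set F : Adl K → ℝ → ℂ := fun x α =>
      ∫ β in (0 : ℝ)..Real.pi, φ (n x * g * Y α β) * ((Real.sin β : ℝ) : ℂ) with hF
    have hFc : Continuous (Function.uncurry F) :=
      hinner (fun x : Adl K => n x * g) (hnc.mul continuous_const)
    have hFint : Integrable (Function.uncurry F)
        ((μ.restrict D).prod (volume.restrict (Set.Ioc (0 : ℝ) (2 * Real.pi)))) :=
      Integrable.mono' (g := fun _ => C * |Real.pi - 0|) (integrable_const _)
        hFc.aestronglyMeasurable (Filter.Eventually.of_forall fun p => hinner_bd _ _)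
    have h1 : ∀ x : Adl K, sphereMean Y φ (n x * g)
        = ∫ α in Set.Ioc (0 : ℝ) (2 * Real.pi), F x α := fun x =>
      intervalIntegral.integral_of_le (by positivity)
    show ∫ x in D, sphereMean Y φ (n x * g) ∂μ = 0
    simp only [h1]
    rw [integral_integral_swap hFint]
    -- second swap: `x` and `β`, for every `α`
    have h2 : ∀ α : ℝ, ∫ x in D, F x α ∂μ = 0 := by
      intro α
      set f : Adl K → ℝ → ℂ := fun x β => φ (n x * g * Y α β) * ((Real.sin β : ℝ) : ℂ)
        with hf
      have hfc : Continuous (Function.uncurry f) := by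
        refine (hφ.aut.cont.comp ?_).mul (hsin.comp continuous_snd)
        refine ((hnc.comp continuous_fst).mul continuous_const).mul ?_
        exact hYc.comp (continuous_const.prodMk continuous_snd)
      have hfint : Integrable (Function.uncurry f)
          ((μ.restrict D).prod (volume.restrict (Set.Ioc (0 : ℝ) Real.pi))) := by
        refine Integrable.mono' (g := fun _ => C) (integrable_const C)
          hfc.aestronglyMeasurable (Filter.Eventually.of_forall fun p => ?_)
        show ‖φ (n p.1 * g * Y α p.2) * ((Real.sin p.2 : ℝ) : ℂ)‖ ≤ C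
        rw [norm_mul, Complex.norm_real]
        calc ‖φ (n p.1 * g * Y α p.2)‖ * ‖Real.sin p.2‖ ≤ C * 1 :=
              mul_le_mul (hC _) (by rw [Real.norm_eq_abs]; exact Real.abs_sin_le_one _)
                (norm_nonneg _) hC0
          _ = C := mul_one C
      have h3 : ∀ x : Adl K, F x α = ∫ β in Set.Ioc (0 : ℝ) Real.pi, f x β := fun x =>
        intervalIntegral.integral_of_le Real.pi_pos.le
      simp only [h3]
      rw [integral_integral_swap hfint]
      have h4 : ∀ β : ℝ, ∫ x in D, f x β ∂μ = 0 := by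
        intro β
        have := hφ.cuspidal μ hμ D hD n hn (g * Y α β)
        simp only [hf]
        rw [integral_mul_const]
        simp only [mul_assoc]
        rw [this, zero_mul]
      simp only [h4, integral_zero]
    simp only [h2, integral_zero]

end Fermat.Agent.LT.T2.H409

end
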